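/-
JT3 node D2: the Katz-Mazur quotient lemma (pure algebra).
`W` a local domain, adically complete for its maximal ideal (a complete discrete valuation ring,
or a field), `G` a finite group acting faithfully on `W⟦X⟧` by `W`-algebra automorphisms,
`S := ∏ g, g • X`.  Then `W⟦X⟧ = ⊕_{i < |G|} W⟦S⟧ X^i` and `W⟦X⟧^G = W⟦S⟧`, where `W⟦S⟧` is the
range of the substitution `c ↦ c.subst S`.
Owner: helper10.  Prefix `kmq_`.
-/
import Mathlib

set_option autoImplicit false
set_option linter.unusedSectionVars false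

open PowerSeries

noncomputable section

namespace Fermat.Agent.S18

variable {W : Type*} [CommRing W] [IsLocalRing W]
variable {G : Type*} [Group G] [MulSemiringAction G W⟦X⟧] [SMulCommClass G W W⟦X⟧]

/-! ### Automorphisms of `W⟦X⟧` -/

omit [IsLocalRing W] in
theorem kmq_coeff_one_mul (a b : W⟦X⟧) :
    coeff 1 (a * b) = constantCoeff a * coeff 1 b + coeff 1 a * constantCoeff b := by
  rw [PowerSeries.coeff_mul]
  simp [Finset.Nat.antidiagonal_succ]

omit [IsLocalRing W] in
theorem kmq_smul_C (g : G) (w : W) : g • (C w : W⟦X⟧) = C w := by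
  have h : (C w : W⟦X⟧) = w • (1 : W⟦X⟧) := by
    rw [PowerSeries.smul_eq_C_mul, mul_one]
  rw [h, smul_comm, smul_one]

omit [IsLocalRing W] in
theorem kmq_isUnit_smul_iff (g : G) (f : W⟦X⟧) : IsUnit (g • f) ↔ IsUnit f :=
  isUnit_map_iff (MulSemiringAction.toRingEquiv G W⟦X⟧ g) f

theorem kmq_constantCoeff_smul_X_mem (g : G) :
    constantCoeff (g • (X : W⟦X⟧)) ∈ IsLocalRing.maximalIdeal W := by
  rw [IsLocalRing.mem_maximalIdeal, mem_nonunits_iff, ← PowerSeries.isUnit_iff_constantCoeff,
    kmq_isUnit_smul_iff, PowerSeries.isUnit_iff_constantCoeff]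
  simp

theorem kmq_isUnit_coeff_one_smul_X (g : G) : IsUnit (coeff 1 (g • (X : W⟦X⟧))) := by
  set f : W⟦X⟧ := g⁻¹ • (X : W⟦X⟧) with hf
  have hgf : g • f = X := by rw [hf, smul_inv_smul]
  have h1 := PowerSeries.eq_X_mul_shift_add_const f
  set f' : W⟦X⟧ := PowerSeries.mk fun p => coeff (p + 1) f with hf'
  have h2 : (X : W⟦X⟧) = (g • X) * (g • f') + C (constantCoeff f) := by
    conv_lhs => rw [← hgf, h1, smul_add, smul_mul', kmq_smul_C]
  have h3 := congrArg (coeff 1) h2
  rw [PowerSeries.coeff_one_X, map_add, kmq_coeff_one_mul, PowerSeries.coeff_C,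
    if_neg one_ne_zero, add_zero] at h3
  have h4 : coeff 1 (g • (X : W⟦X⟧)) * constantCoeff (g • f') =
      1 - constantCoeff (g • (X : W⟦X⟧)) * coeff 1 (g • f') := by
    rw [h3]; ring
  have h5 : IsUnit (1 - constantCoeff (g • (X : W⟦X⟧)) * coeff 1 (g • f')) :=
    IsLocalRing.isUnit_one_sub_self_of_mem_nonunits _
      ((IsLocalRing.mem_maximalIdeal _).mp
        (Ideal.mul_mem_right _ _ (kmq_constantCoeff_smul_X_mem g)))
  rw [← h4] at h5
  exact isUnit_of_mul_isUnit_left h5


/-! ### The norm `S` of `X` -/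

variable [Fintype G]

variable (W G) in
/-- The norm `S = ∏ g, g • X` of the variable. -/
def kmq_S : W⟦X⟧ := ∏ g : G, g • (X : W⟦X⟧)

theorem kmq_smul_S (g : G) : g • kmq_S W G = kmq_S W G := by
  rw [kmq_S, Finset.smul_prod']
  refine Fintype.prod_bijective (g * ·) (Group.mulLeft_bijective g) _ _ (fun h => ?_)
  rw [mul_smul]

theorem kmq_X_dvd_S : (X : W⟦X⟧) ∣ kmq_S W G := by
  have h : (1 : G) • (X : W⟦X⟧) ∣ ∏ g : G, g • (X : W⟦X⟧) :=
    Finset.dvd_prod_of_mem (fun g : G => g • (X : W⟦X⟧)) (Finset.mem_univ 1)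
  rwa [one_smul] at h

theorem kmq_constantCoeff_S : constantCoeff (kmq_S W G) = 0 :=
  PowerSeries.X_dvd_iff.mp kmq_X_dvd_S

theorem kmq_hasSubst_S : HasSubst (kmq_S W G) :=
  HasSubst.of_constantCoeff_zero' kmq_constantCoeff_S

theorem kmq_X_pow_dvd_S_pow (K : ℕ) : (X : W⟦X⟧) ^ K ∣ kmq_S W G ^ K :=
  pow_dvd_pow_of_dvd kmq_X_dvd_S K

/-- The order of `g • X` modulo the maximal ideal is one. -/
theorem kmq_order_map_smul_X (g : G) :
    (PowerSeries.map (IsLocalRing.residue W) (g • (X : W⟦X⟧))).order = 1 := by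
  apply PowerSeries.order_eq_nat.mpr
  constructor
  · rw [PowerSeries.coeff_map]
    intro h
    exact (IsLocalRing.residue_ne_zero_iff_isUnit _).mpr (kmq_isUnit_coeff_one_smul_X g) h
  · intro i hi
    have hi0 : i = 0 := by omega
    subst hi0
    rw [PowerSeries.coeff_map, PowerSeries.coeff_zero_eq_constantCoeff_apply,
      IsLocalRing.residue_eq_zero_iff]
    exact kmq_constantCoeff_smul_X_mem g

/-- Modulo the maximal ideal, `S` has order exactly `|G|`. -/
theorem kmq_order_map_S :
    (PowerSeries.map (IsLocalRing.residue W) (kmq_S W G)).order = Fintype.card G := by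
  rw [kmq_S, map_prod, PowerSeries.order_prod]
  simp [kmq_order_map_smul_X, Finset.card_univ]

theorem kmq_map_S_ne_zero : PowerSeries.map (IsLocalRing.residue W) (kmq_S W G) ≠ 0 := by
  intro h
  have := kmq_order_map_S (W := W) (G := G)
  rw [h, PowerSeries.order_zero] at this
  exact ENat.top_ne_natCast _ this


/-! ### Separation and truncation -/

omit [IsLocalRing W] in
theorem kmq_eq_zero_of_forall_X_pow_dvd (f : W⟦X⟧) (h : ∀ K : ℕ, (X : W⟦X⟧) ^ K ∣ f) : f = 0 := by
  ext j
  rw [map_zero]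
  exact PowerSeries.X_pow_dvd_iff.mp (h (j + 1)) j (Nat.lt_succ_self j)

omit [IsLocalRing W] in
/-- Truncated form of a substitution. -/
theorem kmq_subst_eq {a : W⟦X⟧} (ha : HasSubst a) (c : W⟦X⟧) (K : ℕ) :
    c.subst a = Polynomial.aeval a (PowerSeries.trunc K c) +
      a ^ K * (PowerSeries.mk fun i => coeff (i + K) c).subst a := by
  conv_lhs => rw [PowerSeries.eq_X_pow_mul_shift_add_trunc K c]
  rw [PowerSeries.subst_add ha, PowerSeries.subst_mul ha, PowerSeries.subst_pow ha,
    PowerSeries.subst_X ha, PowerSeries.subst_coe ha, add_comm]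

omit [IsLocalRing W] in
theorem kmq_aeval_trunc (a : W⟦X⟧) (c : W⟦X⟧) (K : ℕ) :
    Polynomial.aeval a (PowerSeries.trunc K c) =
      ∑ k ∈ Finset.range K, C (coeff k c) * a ^ k := by
  rw [PowerSeries.trunc_apply, map_sum, Nat.Ico_zero_eq_range]
  refine Finset.sum_congr rfl (fun k _ => ?_)
  rw [Polynomial.aeval_monomial]
  rfl

omit [IsLocalRing W] in
theorem kmq_smul_aeval (g : G) {a : W⟦X⟧} (hga : g • a = a) (p : Polynomial W) :
    g • (Polynomial.aeval a p : W⟦X⟧) = Polynomial.aeval a p := by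
  induction p using Polynomial.induction_on' with
  | add p q hp hq => rw [map_add, smul_add, hp, hq]
  | monomial n w =>
    rw [Polynomial.aeval_monomial, smul_mul', smul_pow', hga]
    congr 1
    exact kmq_smul_C g w

omit [IsLocalRing W] in
/-- A `W`-algebra automorphism fixing `a` fixes every power series in `a`. -/
theorem kmq_smul_subst_of_fixed {a : W⟦X⟧} (ha0 : constantCoeff a = 0) (g : G)
    (hga : g • a = a) (c : W⟦X⟧) : g • c.subst a = c.subst a := by
  have ha : HasSubst a := HasSubst.of_constantCoeff_zero' ha0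
  rw [← sub_eq_zero]
  apply kmq_eq_zero_of_forall_X_pow_dvd
  intro K
  have hX : (X : W⟦X⟧) ^ K ∣ a ^ K := pow_dvd_pow_of_dvd (PowerSeries.X_dvd_iff.mpr ha0) K
  have h1 := kmq_subst_eq ha c K
  set t : W⟦X⟧ := (PowerSeries.mk fun i => coeff (i + K) c).subst a with ht
  have h2 : g • c.subst a - c.subst a = a ^ K * (g • t - t) := by
    rw [h1, smul_add, smul_mul', smul_pow', hga, kmq_smul_aeval g hga]
    ring
  rw [h2]
  exact Dvd.dvd.mul_right hX _

omit [IsLocalRing W] in
/-- A `W`-algebra automorphism fixing `X` is the identity. -/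
theorem kmq_smul_eq_of_smul_X (g : G) (hg : g • (X : W⟦X⟧) = X) (f : W⟦X⟧) : g • f = f := by
  have := kmq_smul_subst_of_fixed (a := (X : W⟦X⟧)) (by simp) g hg f
  rwa [PowerSeries.X_subst] at this

omit [IsLocalRing W] in
theorem kmq_smul_X_injective [FaithfulSMul G W⟦X⟧] :
    Function.Injective fun g : G => g • (X : W⟦X⟧) := by
  intro g h hgh
  have h1 : (h⁻¹ * g) • (X : W⟦X⟧) = X := by
    rw [mul_smul]
    change h⁻¹ • (g • (X : W⟦X⟧)) = X
    have : g • (X : W⟦X⟧) = h • X := hgh
    rw [this, inv_smul_smul]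
  have h2 : h⁻¹ * g = 1 := by
    apply FaithfulSMul.eq_of_smul_eq_smul (α := W⟦X⟧)
    intro f
    rw [one_smul]
    exact kmq_smul_eq_of_smul_X _ h1 f
  exact (inv_mul_eq_one.mp h2).symm

theorem kmq_smul_subst_S (g : G) (c : W⟦X⟧) :
    g • c.subst (kmq_S W G) = c.subst (kmq_S W G) :=
  kmq_smul_subst_of_fixed kmq_constantCoeff_S g (kmq_smul_S g) c


/-! ### Generation: `W⟦X⟧ = ∑_{i < |G|} W⟦S⟧ X^i` -/

section Generation

variable [IsAdicComplete (IsLocalRing.maximalIdeal W) W]

variable (G) in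
/-- The iterated Weierstrass quotients of `f` by `S`. -/
def kmq_quot (f : W⟦X⟧) : ℕ → W⟦X⟧
  | 0 => f
  | (k + 1) => kmq_quot f k /ʷ kmq_S W G

variable (G) in
/-- The iterated Weierstrass remainders of `f` by `S`. -/
def kmq_rem (f : W⟦X⟧) (k : ℕ) : Polynomial W := kmq_quot G f k %ʷ kmq_S W G

theorem kmq_quot_eq (f : W⟦X⟧) (k : ℕ) :
    kmq_quot G f k = kmq_S W G * kmq_quot G f (k + 1) + (kmq_rem G f k : W⟦X⟧) :=
  PowerSeries.eq_mul_weierstrassDiv_add_weierstrassMod (kmq_quot G f k) kmq_map_S_ne_zero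

theorem kmq_coeff_rem_eq_zero (f : W⟦X⟧) (k : ℕ) {i : ℕ} (hi : Fintype.card G ≤ i) :
    (kmq_rem G f k).coeff i = 0 := by
  apply Polynomial.coeff_eq_zero_of_degree_lt
  refine lt_of_lt_of_le (PowerSeries.degree_weierstrassMod_lt (kmq_quot G f k)
    (g := kmq_S W G)) ?_
  rw [kmq_order_map_S, ENat.toNat_natCast]
  exact_mod_cast hi

theorem kmq_finite_expansion (f : W⟦X⟧) (K : ℕ) :
    f = ∑ k ∈ Finset.range K, (kmq_rem G f k : W⟦X⟧) * kmq_S W G ^ k +
      kmq_quot G f K * kmq_S W G ^ K := by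
  induction K with
  | zero => simp [kmq_quot]
  | succ K ih =>
    rw [Finset.sum_range_succ]
    conv_lhs => rw [ih, kmq_quot_eq f K]
    ring

theorem kmq_rem_eq_sum (f : W⟦X⟧) (k : ℕ) :
    (kmq_rem G f k : W⟦X⟧) =
      ∑ i ∈ Finset.range (Fintype.card G), C ((kmq_rem G f k).coeff i) * X ^ i := by
  ext j
  rw [Polynomial.coeff_coe, map_sum]
  simp only [PowerSeries.coeff_C_mul_X_pow]
  by_cases hj : j < Fintype.card G
  · rw [Finset.sum_eq_single j]
    · rw [if_pos rfl]
    · intro i _ hij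
      rw [if_neg (Ne.symm hij)]
    · intro hj'
      exact absurd (Finset.mem_range.mpr hj) hj'
  · rw [kmq_coeff_rem_eq_zero f k (not_lt.mp hj), Finset.sum_eq_zero]
    intro i hi
    rw [if_neg]
    intro hji
    exact hj (hji ▸ Finset.mem_range.mp hi)

variable (G) in
/-- The coefficients (in `W⟦Y⟧`, `Y ↦ S`) of `f` on the basis `1, X, …, X^{|G|-1}`. -/
def kmq_coef (f : W⟦X⟧) (i : ℕ) : W⟦X⟧ := PowerSeries.mk fun k => (kmq_rem G f k).coeff i

/-- **Generation.** Every power series is a combination of `1, X, …, X^{|G|-1}` with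
coefficients in `W⟦S⟧`. -/
theorem kmq_expansion (f : W⟦X⟧) :
    f = ∑ i ∈ Finset.range (Fintype.card G), (kmq_coef G f i).subst (kmq_S W G) * X ^ i := by
  rw [← sub_eq_zero]
  apply kmq_eq_zero_of_forall_X_pow_dvd
  intro K
  refine dvd_trans (kmq_X_pow_dvd_S_pow (W := W) (G := G) K) ?_
  set S := kmq_S W G with hS
  set n := Fintype.card G with hn
  let t : ℕ → W⟦X⟧ := fun i => (PowerSeries.mk fun m => coeff (m + K) (kmq_coef G f i)).subst S
  have h1 : ∀ i, (kmq_coef G f i).subst S =
      ∑ k ∈ Finset.range K, C ((kmq_rem G f k).coeff i) * S ^ k + S ^ K * t i := by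
    intro i
    rw [kmq_subst_eq kmq_hasSubst_S (kmq_coef G f i) K, kmq_aeval_trunc]
    congr 1
    refine Finset.sum_congr rfl (fun k _ => ?_)
    rw [kmq_coef, PowerSeries.coeff_mk]
  have h2 : ∑ i ∈ Finset.range n, (kmq_coef G f i).subst S * X ^ i =
      ∑ k ∈ Finset.range K, (kmq_rem G f k : W⟦X⟧) * S ^ k +
        S ^ K * ∑ i ∈ Finset.range n, t i * X ^ i := by
    simp only [h1, add_mul, Finset.sum_add_distrib, Finset.sum_mul, Finset.mul_sum]
    congr 1
    · rw [Finset.sum_comm]
      refine Finset.sum_congr rfl (fun k _ => ?_)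
      rw [kmq_rem_eq_sum f k, Finset.sum_mul]
      refine Finset.sum_congr rfl (fun i _ => ?_)
      ring
    · refine Finset.sum_congr rfl (fun i _ => ?_)
      ring
  have h3 : f = ∑ k ∈ Finset.range K, (kmq_rem G f k : W⟦X⟧) * S ^ k +
      kmq_quot G f K * S ^ K := kmq_finite_expansion f K
  refine ⟨kmq_quot G f K - ∑ i ∈ Finset.range n, t i * X ^ i, ?_⟩
  rw [h2]
  linear_combination h3

end Generation


/-! ### Injectivity of the substitution -/

omit [IsLocalRing W] in
theorem kmq_constantCoeff_subst {a : W⟦X⟧} (ha0 : constantCoeff a = 0) (c : W⟦X⟧) :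
    constantCoeff (c.subst a) = constantCoeff c := by
  have ha : HasSubst a := HasSubst.of_constantCoeff_zero' ha0
  rw [kmq_subst_eq ha c 1, PowerSeries.trunc_one_left, Polynomial.aeval_C, pow_one, map_add,
    map_mul, ha0, zero_mul, add_zero]
  change constantCoeff (C (coeff 0 c)) = _
  rw [PowerSeries.constantCoeff_C, PowerSeries.coeff_zero_eq_constantCoeff_apply]

omit [IsLocalRing W] in
theorem kmq_subst_injective [IsDomain W] {a : W⟦X⟧} (ha0 : constantCoeff a = 0) (ha : a ≠ 0) :
    Function.Injective fun c : W⟦X⟧ => c.subst a := by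
  have hs : HasSubst a := HasSubst.of_constantCoeff_zero' ha0
  have key : ∀ c : W⟦X⟧, c.subst a = 0 → c = 0 := by
    intro c hc
    by_contra hne
    have h1 : c = X ^ c.order.toNat * PowerSeries.divXPowOrder c :=
      PowerSeries.X_pow_order_mul_divXPowOrder.symm
    rw [h1, PowerSeries.subst_mul hs, PowerSeries.subst_pow hs, PowerSeries.subst_X hs] at hc
    rcases mul_eq_zero.mp hc with h2 | h2
    · exact pow_ne_zero _ ha h2
    · have h3 := congrArg constantCoeff h2
      rw [kmq_constantCoeff_subst ha0, map_zero,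
        PowerSeries.constantCoeff_divXPowOrder_eq_zero_iff] at h3
      exact hne h3
  intro c c' hcc
  have h : (c - c').subst a = 0 := by
    rw [PowerSeries.subst_sub hs]
    exact sub_eq_zero.mpr hcc
  exact sub_eq_zero.mp (key _ h)

/-! ### Invariants -/

section Invariants

variable [IsDomain W] [FaithfulSMul G W⟦X⟧]

omit [IsLocalRing W] in
/-- A polynomial relation of degree `< |G|` in `X` with invariant coefficients is trivial. -/
theorem kmq_eq_zero_of_sum_eq_zero (b : ℕ → W⟦X⟧) (hb : ∀ (g : G) (i : ℕ), g • b i = b i)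
    (h : ∑ i ∈ Finset.range (Fintype.card G), b i * X ^ i = 0) :
    ∀ i < Fintype.card G, b i = 0 := by
  classical
  set n := Fintype.card G with hn
  have hn0 : 0 < n := Fintype.card_pos
  set P : Polynomial W⟦X⟧ := ∑ i ∈ Finset.range n, Polynomial.monomial i (b i) with hP
  have heval : ∀ g : G, P.eval (g • (X : W⟦X⟧)) = 0 := by
    intro g
    have h1 := congrArg (fun f => g • f) h
    simp only [Finset.smul_sum, smul_mul', smul_pow', hb, smul_zero] at h1
    rw [hP, Polynomial.eval_finsetSum]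
    simpa [Polynomial.eval_monomial] using h1
  have hdeg : P.natDegree < Fintype.card G := by
    refine lt_of_le_of_lt (Polynomial.natDegree_sum_le_of_forall_le (n := n - 1) _ _ ?_) ?_
    · intro i hi
      refine le_trans (Polynomial.natDegree_monomial_le _) ?_
      have := Finset.mem_range.mp hi
      omega
    · omega
  have hP0 : P = 0 :=
    Polynomial.eq_zero_of_natDegree_lt_card_of_eval_eq_zero P kmq_smul_X_injective heval hdeg
  intro i hi
  have h2 := congrArg (fun Q : Polynomial W⟦X⟧ => Q.coeff i) hP0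
  simp only [hP, Polynomial.finsetSum_coeff, Polynomial.coeff_monomial, Polynomial.coeff_zero]
    at h2
  rw [Finset.sum_eq_single i] at h2
  · simpa using h2
  · intro j _ hji
    rw [if_neg hji]
  · intro hi'
    exact absurd (Finset.mem_range.mpr hi) hi'

variable [IsAdicComplete (IsLocalRing.maximalIdeal W) W]

/-- **The Katz-Mazur quotient lemma**: the invariants of `G` in `W⟦X⟧` are the power series
in the norm `S` of `X`. -/
theorem kmq_invariant_iff (f : W⟦X⟧) :
    (∀ g : G, g • f = f) ↔ ∃ c : W⟦X⟧, f = c.subst (kmq_S W G) := by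
  constructor
  · intro hf
    refine ⟨kmq_coef G f 0, ?_⟩
    set n := Fintype.card G with hn
    have hn0 : 0 < n := Fintype.card_pos
    have hexp := kmq_expansion (G := G) f
    let b : ℕ → W⟦X⟧ := fun i =>
      if i = 0 then (kmq_coef G f 0).subst (kmq_S W G) - f
      else (kmq_coef G f i).subst (kmq_S W G)
    have hb : ∀ (g : G) (i : ℕ), g • b i = b i := by
      intro g i
      by_cases hi : i = 0
      · simp only [b, if_pos hi, smul_sub, kmq_smul_subst_S, hf g]
      · simp only [b, if_neg hi, kmq_smul_subst_S]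
    have hsum : ∑ i ∈ Finset.range n, b i * X ^ i = 0 := by
      have h1 : ∑ i ∈ Finset.range n, b i * X ^ i =
          ∑ i ∈ Finset.range n, (kmq_coef G f i).subst (kmq_S W G) * X ^ i - f := by
        rw [← Nat.succ_pred_eq_of_pos hn0, Finset.sum_range_succ', Finset.sum_range_succ']
        simp only [b, if_pos, pow_zero, mul_one, if_neg (Nat.succ_ne_zero _)]
        ring
      rw [h1, ← hexp, sub_self]
    have h0 := kmq_eq_zero_of_sum_eq_zero b hb hsum 0 hn0
    simp only [b, if_pos] at h0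
    exact (sub_eq_zero.mp h0).symm
  · rintro ⟨c, rfl⟩ g
    exact kmq_smul_subst_S g c

end Invariants


/-! ### Freeness, the algebra of invariants, reduction -/

theorem kmq_S_ne_zero : kmq_S W G ≠ 0 := by
  intro h
  apply kmq_map_S_ne_zero (W := W) (G := G)
  rw [h, map_zero]

section Freeness

variable [IsDomain W] [FaithfulSMul G W⟦X⟧]

/-- **Freeness**: `1, X, …, X^{|G|-1}` are linearly independent over `W⟦S⟧`. -/
theorem kmq_expansion_unique (c : ℕ → W⟦X⟧)
    (h : ∑ i ∈ Finset.range (Fintype.card G), (c i).subst (kmq_S W G) * X ^ i = 0) :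
    ∀ i < Fintype.card G, c i = 0 := by
  intro i hi
  have h1 := kmq_eq_zero_of_sum_eq_zero (fun i => (c i).subst (kmq_S W G))
    (fun g i => kmq_smul_subst_S g (c i)) h i hi
  have h2 : (0 : W⟦X⟧).subst (kmq_S W G) = 0 := by
    rw [← PowerSeries.coe_substAlgHom (kmq_hasSubst_S (W := W) (G := G)), map_zero]
  exact kmq_subst_injective kmq_constantCoeff_S kmq_S_ne_zero (h1.trans h2.symm)

variable (W G) in
/-- The substitution `c ↦ c(S)` as a `W`-algebra homomorphism. -/
def kmq_substHom : W⟦X⟧ →ₐ[W] W⟦X⟧ :=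
  PowerSeries.substAlgHom (kmq_hasSubst_S (W := W) (G := G))

theorem kmq_substHom_apply (c : W⟦X⟧) : kmq_substHom W G c = c.subst (kmq_S W G) := by
  rw [kmq_substHom, PowerSeries.coe_substAlgHom]

theorem kmq_substHom_injective : Function.Injective (kmq_substHom W G) := by
  intro c c' h
  rw [kmq_substHom_apply, kmq_substHom_apply] at h
  exact kmq_subst_injective kmq_constantCoeff_S kmq_S_ne_zero h

variable [IsAdicComplete (IsLocalRing.maximalIdeal W) W]

/-- The range of the substitution is the algebra of invariants. -/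
theorem kmq_range_substHom :
    (kmq_substHom W G).range = FixedPoints.subalgebra W W⟦X⟧ G := by
  ext f
  rw [AlgHom.mem_range]
  change _ ↔ f ∈ MulAction.fixedPoints G W⟦X⟧
  rw [MulAction.mem_fixedPoints, kmq_invariant_iff]
  constructor
  · rintro ⟨c, hc⟩
    exact ⟨c, by rw [← hc, kmq_substHom_apply]⟩
  · rintro ⟨c, hc⟩
    exact ⟨c, by rw [hc, kmq_substHom_apply]⟩

variable (W G) in
/-- `W⟦Y⟧ ≃ W⟦X⟧^G`, `Y ↦ S`. -/
def kmq_equiv : W⟦X⟧ ≃ₐ[W] FixedPoints.subalgebra W W⟦X⟧ G :=
  (AlgEquiv.ofInjective (kmq_substHom W G) kmq_substHom_injective).trans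
    (Subalgebra.equivOfEq _ _ kmq_range_substHom)

theorem kmq_equiv_apply (c : W⟦X⟧) :
    ((kmq_equiv W G c : FixedPoints.subalgebra W W⟦X⟧ G) : W⟦X⟧) = c.subst (kmq_S W G) := by
  rw [← kmq_substHom_apply]
  rfl

/-- **Reduction**: the image of the invariants modulo the maximal ideal of `W` is the ring of
power series in the reduction of `S`, which has order exactly `|G|`. -/
theorem kmq_map_invariants (fbar : (IsLocalRing.ResidueField W)⟦X⟧) :
    (∃ f : W⟦X⟧, (∀ g : G, g • f = f) ∧ PowerSeries.map (IsLocalRing.residue W) f = fbar) ↔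
      ∃ cbar : (IsLocalRing.ResidueField W)⟦X⟧,
        fbar = cbar.subst (PowerSeries.map (IsLocalRing.residue W) (kmq_S W G)) := by
  constructor
  · rintro ⟨f, hf, rfl⟩
    obtain ⟨c, rfl⟩ := (kmq_invariant_iff f).mp hf
    exact ⟨PowerSeries.map (IsLocalRing.residue W) c,
      PowerSeries.map_subst kmq_hasSubst_S c⟩
  · rintro ⟨cbar, rfl⟩
    obtain ⟨c, rfl⟩ := PowerSeries.map_surjective (IsLocalRing.residue W)
      IsLocalRing.residue_surjective cbar
    exact ⟨c.subst (kmq_S W G), fun g => kmq_smul_subst_S g c,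
      PowerSeries.map_subst kmq_hasSubst_S c⟩

end Freeness

/-- A field is adically complete for its maximal ideal (so the lemma applies to `k⟦X⟧`). -/
theorem kmq_isAdicComplete_field (k : Type*) [Field k] :
    IsAdicComplete (IsLocalRing.maximalIdeal k) k := by
  rw [IsLocalRing.maximalIdeal_eq_bot]
  infer_instance

end Fermat.Agent.S18





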